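import Fermat.Agent.S48.H196.EisSpec

/-!
# S48 / P2-EIS, steps 5-6 (algebraic part): `E_{1,ψ}` and `H = 2ℓ·E_{1,ψ} ≡ 1 mod 𝔪`

(helper196.)  Sorry-free proofs of the two pieces of `EisSpec.lean`:

* `eisensteinOnePiece : EisensteinOnePiece`
  (`EisOneFamilyStatement → EisensteinOneStatement`): from the family `F_v` of weight-one
  functions, `E = (-4πi τ(ψ⁻¹))⁻¹ ∑_b ψ⁻¹(b) F_{(0,b)}` is a modular form on `Γ₁(N)` with
  nebentypus `ψ`, `a_0 = -(∑ a ψ(a)) / 2N`, `a_n = ∑_{d ∣ n} ψ(d)`.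
* `congOnePiece : CongOnePiece` (`EisensteinOneStatement → CongOneStatement`).

Tools: Gauss sums of primitive characters (`gaussSum_ne_zero_of_isPrimitive`,
`sum_mul_stdAddChar`, `sum_mul_sin`, `sum_mul_cot`), the finite identity
`cot(πb/N) = i + (2i/N) ∑_{a<N} a e(ab/N)` (`cot_eq_sum`), and a function-level
`qExpansion_coeff_of_hasSum'`.
-/

set_option autoImplicit false

noncomputable section

namespace Fermat.Agent.S48.H196

open UpperHalfPlane ModularForm CongruenceSubgroup Matrix Matrix.SpecialLinearGroup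
open scoped MatrixGroups Manifold Real

/-! ### Part 1: Gauss sums and finite trigonometric sums -/

section gauss

variable {N : ℕ} [NeZero N]

theorem gaussSum_ne_zero_of_isPrimitive {χ : DirichletCharacter ℂ N} (hχ : χ.IsPrimitive) :
    gaussSum χ ZMod.stdAddChar ≠ 0 := by
  intro h0
  have h1 : ZMod.dft (⇑χ) = 0 := by
    funext k
    rw [hχ.fourierTransform_eq_inv_mul_gaussSum, h0, mul_zero]; rfl
  have h2 := congrFun (ZMod.dft_dft (⇑χ)) (-1)
  rw [h1, map_zero] at h2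
  simp only [Pi.zero_apply, neg_neg, map_one, smul_eq_mul, mul_one] at h2
  exact NeZero.ne (N : ℂ) h2.symm

theorem sum_mul_stdAddChar {χ : DirichletCharacter ℂ N} (hχ : χ.IsPrimitive) (k : ZMod N) :
    ∑ b : ZMod N, χ b * ZMod.stdAddChar (k * b) = χ⁻¹ k * gaussSum χ ZMod.stdAddChar := by
  rw [← gaussSum_mulShift_of_isPrimitive _ hχ]
  simp [gaussSum, AddChar.mulShift_apply]

theorem exp_eq_stdAddChar (k : ℤ) (b : ZMod N) :
    Complex.exp (2 * π * Complex.I * (k * b.val) / N) = ZMod.stdAddChar ((k : ZMod N) * b) := by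
  have h := ZMod.stdAddChar_coe (N := N) (k * b.val)
  have e : ((k * (b.val : ℤ) : ℤ) : ZMod N) = (k : ZMod N) * b := by
    push_cast
    rw [ZMod.natCast_zmod_val]
  rw [e] at h
  rw [h]
  push_cast
  rfl

theorem sin_eq_stdAddChar (k : ℕ) (b : ZMod N) :
    Complex.sin (2 * π * k * b.val / N) =
      (ZMod.stdAddChar (-(k : ZMod N) * b) - ZMod.stdAddChar ((k : ZMod N) * b)) *
        Complex.I / 2 := by
  have h1 := exp_eq_stdAddChar (N := N) (k : ℤ) b
  have h2 := exp_eq_stdAddChar (N := N) (-(k : ℤ)) b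
  simp only [Int.cast_neg, Int.cast_natCast] at h1 h2
  rw [← h1, ← h2, Complex.sin]
  congr 3
  · congr 1; ring
  · congr 1; ring

theorem odd_inv {χ : DirichletCharacter ℂ N} (hodd : χ.Odd) : χ⁻¹.Odd := by
  have h : χ⁻¹ (-1) = -1 := by
    rw [MulChar.inv_apply_eq_inv', hodd]
    norm_num
  exact h

theorem sum_mul_sin {χ : DirichletCharacter ℂ N} (hχ : χ.IsPrimitive) (hodd : χ.Odd) (k : ℕ) :
    ∑ b : ZMod N, χ b * Complex.sin (2 * π * k * b.val / N) =
      -Complex.I * χ⁻¹ (k : ZMod N) * gaussSum χ ZMod.stdAddChar := by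
  calc ∑ b : ZMod N, χ b * Complex.sin (2 * π * k * b.val / N)
      = ∑ b : ZMod N, (χ b * ZMod.stdAddChar (-(k : ZMod N) * b) -
          χ b * ZMod.stdAddChar ((k : ZMod N) * b)) * (Complex.I / 2) := by
        refine Finset.sum_congr rfl fun b _ => ?_
        rw [sin_eq_stdAddChar]; ring
    _ = (∑ b : ZMod N, χ b * ZMod.stdAddChar (-(k : ZMod N) * b) -
          ∑ b : ZMod N, χ b * ZMod.stdAddChar ((k : ZMod N) * b)) * (Complex.I / 2) := by
        rw [← Finset.sum_mul, Finset.sum_sub_distrib]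
    _ = (χ⁻¹ (-(k : ZMod N)) * gaussSum χ ZMod.stdAddChar -
          χ⁻¹ (k : ZMod N) * gaussSum χ ZMod.stdAddChar) * (Complex.I / 2) := by
        rw [sum_mul_stdAddChar hχ, sum_mul_stdAddChar hχ]
    _ = _ := by
        rw [DirichletCharacter.Odd.eval_neg _ _ (odd_inv hodd)]; ring

/-- `(x - 1) ∑_{a<n} a x^a + x ∑_{a<n} x^a = n x^n`. -/
theorem sum_mul_pow_identity (x : ℂ) (n : ℕ) :
    (x - 1) * ∑ a ∈ Finset.range n, (a : ℂ) * x ^ a + x * ∑ a ∈ Finset.range n, x ^ a =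
      n * x ^ n := by
  induction n with
  | zero => simp
  | succ n ih =>
    rw [Finset.sum_range_succ, Finset.sum_range_succ, mul_add, mul_add, Nat.cast_succ]
    linear_combination ih

theorem sum_mul_pow_of_pow_eq_one {x : ℂ} {n : ℕ} (hx : x ^ n = 1) (hx1 : x ≠ 1) :
    ∑ a ∈ Finset.range n, (a : ℂ) * x ^ a = n / (x - 1) := by
  have h1 : x - 1 ≠ 0 := sub_ne_zero.mpr hx1
  have h2 : ∑ a ∈ Finset.range n, x ^ a = 0 := by
    have := geom_sum_mul x n
    rw [hx, sub_self] at this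
    exact (mul_eq_zero.mp this).resolve_right h1
  have h3 := sum_mul_pow_identity x n
  rw [h2, mul_zero, add_zero, hx, mul_one] at h3
  rw [eq_div_iff h1, mul_comm, h3]

theorem stdAddChar_ne_one {b : ZMod N} (hb : b ≠ 0) : (ZMod.stdAddChar b : ℂ) ≠ 1 := by
  intro h
  apply hb
  apply ZMod.injective_stdAddChar
  rw [h, AddChar.map_zero_eq_one]

theorem cot_eq_sum {b : ZMod N} (hb : b ≠ 0) :
    Complex.cot (π * b.val / N) =
      Complex.I + 2 * Complex.I / N *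
        ∑ a ∈ Finset.range N, (a : ℂ) * ZMod.stdAddChar ((a : ZMod N) * b) := by
  have hN : (N : ℂ) ≠ 0 := NeZero.ne _
  set x : ℂ := ZMod.stdAddChar b with hx
  have hx1 : x ≠ 1 := stdAddChar_ne_one hb
  have hxN : x ^ N = 1 := by
    rw [hx, ← AddChar.map_nsmul_eq_pow]
    simp
  have hpow : ∀ a : ℕ, (ZMod.stdAddChar ((a : ZMod N) * b) : ℂ) = x ^ a := by
    intro a
    rw [hx, ← AddChar.map_nsmul_eq_pow, nsmul_eq_mul]
  simp only [hpow]
  rw [sum_mul_pow_of_pow_eq_one hxN hx1, Complex.cot_eq_exp_ratio]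
  have hexp : Complex.exp (2 * Complex.I * (π * b.val / N)) = x := by
    have := exp_eq_stdAddChar (N := N) 1 b
    simp only [Int.cast_one, one_mul] at this
    rw [hx, ← this]
    congr 1; ring
  rw [hexp]
  have h1 : x - 1 ≠ 0 := sub_ne_zero.mpr hx1
  have h2 : 1 - x ≠ 0 := sub_ne_zero.mpr hx1.symm
  field_simp
  ring_nf
  simp only [Complex.I_sq]
  ring


theorem one_lt_of_odd {χ : DirichletCharacter ℂ N} (hodd : χ.Odd) : 1 < N := by
  rcases Nat.lt_or_ge 1 N with h | h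
  · exact h
  · exfalso
    have hN : N = 1 := le_antisymm h (Nat.one_le_iff_ne_zero.mpr (NeZero.ne N))
    subst hN
    have h1 : χ (-1) = -1 := hodd
    have h2 : (-1 : ZMod 1) = 1 := Subsingleton.elim _ _
    rw [h2, map_one] at h1
    norm_num at h1

omit [NeZero N] in
theorem ne_one_of_odd {χ : DirichletCharacter ℂ N} (hodd : χ.Odd) : χ ≠ 1 := by
  intro h
  have h1 : χ (-1) = -1 := hodd
  rw [h, MulChar.one_apply (isUnit_one.neg)] at h1
  norm_num at h1

theorem sum_mul_cot {χ : DirichletCharacter ℂ N} (hχ : χ.IsPrimitive) (hodd : χ.Odd) :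
    ∑ b : ZMod N, χ b * (π * Complex.cot (π * b.val / N)) =
      2 * π * Complex.I / N * gaussSum χ ZMod.stdAddChar *
        ∑ a ∈ Finset.range N, (a : ℂ) * χ⁻¹ (a : ZMod N) := by
  have : Fact (1 < N) := ⟨one_lt_of_odd hodd⟩
  have key : ∀ b : ZMod N, χ b * (π * Complex.cot (π * b.val / N)) =
      π * Complex.I * χ b + 2 * π * Complex.I / N *
        ∑ a ∈ Finset.range N, (a : ℂ) * (χ b * ZMod.stdAddChar ((a : ZMod N) * b)) := by
    intro b
    by_cases hb : b = 0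
    · subst hb
      simp [MulChar.map_zero]
    · rw [cot_eq_sum hb, Finset.mul_sum, Finset.mul_sum, mul_add, mul_add, Finset.mul_sum,
        Finset.mul_sum]
      congr 1
      · ring
      · refine Finset.sum_congr rfl fun a _ => ?_
        ring
  calc ∑ b : ZMod N, χ b * (π * Complex.cot (π * b.val / N))
      = π * Complex.I * ∑ b : ZMod N, χ b + 2 * π * Complex.I / N *
          ∑ a ∈ Finset.range N, (a : ℂ) * ∑ b : ZMod N,
            χ b * ZMod.stdAddChar ((a : ZMod N) * b) := by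
        simp only [key]
        rw [Finset.sum_add_distrib, ← Finset.mul_sum, ← Finset.mul_sum, Finset.sum_comm]
        simp only [Finset.mul_sum]
    _ = _ := by
        rw [MulChar.sum_eq_zero_of_ne_one (ne_one_of_odd hodd), mul_zero, zero_add]
        simp only [sum_mul_stdAddChar hχ]
        have h3 : ∀ x ∈ Finset.range N,
            (x : ℂ) * (χ⁻¹ (x : ZMod N) * gaussSum χ ZMod.stdAddChar) =
              gaussSum χ ZMod.stdAddChar * ((x : ℂ) * χ⁻¹ (x : ZMod N)) := fun x _ => by ring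
        rw [Finset.sum_congr rfl h3, ← Finset.mul_sum]
        ring

end gauss

/-! ### Part 2: the function `∑_b χ(b) F_{(0,b)}` -/

section form

variable {N : ℕ} [NeZero N] (fam : EisOneFamily N) (χ : DirichletCharacter ℂ N)

/-- the unnormalised sum `G = ∑_b χ(b) F_{(0,b)}` -/
def eisG : ℍ → ℂ := fun τ => ∑ b : ZMod N, χ b * fam.F ![0, b] τ

omit [NeZero N] in
theorem vec_ne_zero {b : ZMod N} (hb : b ≠ 0) : (![0, b] : Fin 2 → ZMod N) ≠ 0 := by
  intro h
  apply hb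
  have := congrFun h 1
  simpa using this

omit [NeZero N] in
theorem vecMul_ne_zero {v : Fin 2 → ZMod N} (hv : v ≠ 0) (γ : SL(2, ℤ)) :
    v ᵥ* (SpecialLinearGroup.map (Int.castRingHom (ZMod N)) γ :
      Matrix (Fin 2) (Fin 2) (ZMod N)) ≠ 0 := by
  intro h
  apply hv
  have hAB : (SpecialLinearGroup.map (Int.castRingHom (ZMod N)) γ) *
      (SpecialLinearGroup.map (Int.castRingHom (ZMod N)) γ⁻¹) = 1 := by
    rw [← map_mul, mul_inv_cancel, map_one]
  have hAB' : ((SpecialLinearGroup.map (Int.castRingHom (ZMod N)) γ : SL(2, ZMod N)) :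
      Matrix (Fin 2) (Fin 2) (ZMod N)) *
      ((SpecialLinearGroup.map (Int.castRingHom (ZMod N)) γ⁻¹ : SL(2, ZMod N)) :
        Matrix (Fin 2) (Fin 2) (ZMod N)) = 1 := by
    have h3 := congrArg Subtype.val hAB
    exact h3
  have h2 := congrArg (fun w => w ᵥ* ((SpecialLinearGroup.map (Int.castRingHom (ZMod N)) γ⁻¹ :
    SL(2, ZMod N)) : Matrix (Fin 2) (Fin 2) (ZMod N))) h
  simp only [Matrix.vecMul_vecMul, Matrix.zero_vecMul] at h2
  rw [hAB', Matrix.vecMul_one] at h2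
  exact h2

theorem eisG_slash (hN : 1 < N) (γ : SL(2, ℤ)) :
    eisG fam χ ∣[(1 : ℤ)] γ = fun τ => ∑ b : ZMod N, χ b *
      fam.F (![0, b] ᵥ* (SpecialLinearGroup.map (Int.castRingHom (ZMod N)) γ :
        Matrix (Fin 2) (Fin 2) (ZMod N))) τ := by
  have : Fact (1 < N) := ⟨hN⟩
  funext τ
  rw [ModularForm.SL_slash_apply]
  simp only [eisG]
  rw [Finset.sum_mul]
  refine Finset.sum_congr rfl fun b _ => ?_
  by_cases hb : b = 0
  · subst hb
    simp [MulChar.map_zero]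
  · rw [← fam.slash _ (vec_ne_zero hb) γ, ModularForm.SL_slash_apply]
    ring

omit [NeZero N] in
theorem vecMul_of_mem_Gamma0 {γ : SL(2, ℤ)} (hγ : γ ∈ Gamma0 N) (b : ZMod N) :
    ![0, b] ᵥ* (SpecialLinearGroup.map (Int.castRingHom (ZMod N)) γ :
      Matrix (Fin 2) (Fin 2) (ZMod N)) = ![0, b * ((γ 1 1 : ℤ) : ZMod N)] := by
  rw [Gamma0_mem] at hγ
  ext i
  fin_cases i
  · simp [Matrix.vecMul, dotProduct, Fin.sum_univ_two, hγ]
  · simp [Matrix.vecMul, dotProduct, Fin.sum_univ_two]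

omit [NeZero N] in
theorem isUnit_of_mem_Gamma0 {γ : SL(2, ℤ)} (hγ : γ ∈ Gamma0 N) :
    IsUnit (((γ 1 1 : ℤ) : ZMod N)) := by
  rw [Gamma0_mem] at hγ
  have hdet : (γ 0 0 : ℤ) * γ 1 1 - γ 0 1 * γ 1 0 = 1 := by
    have := γ.det_coe
    rwa [Matrix.det_fin_two] at this
  have h2 : ((γ 0 0 : ℤ) : ZMod N) * ((γ 1 1 : ℤ) : ZMod N) = 1 := by
    have := congrArg (Int.cast : ℤ → ZMod N) hdet
    push_cast at this
    rw [hγ, mul_zero, sub_zero] at this
    exact this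
  exact IsUnit.of_mul_eq_one_right _ h2

theorem eisG_slash_Gamma0 (hN : 1 < N) {γ : SL(2, ℤ)} (hγ : γ ∈ Gamma0 N) :
    eisG fam χ ∣[(1 : ℤ)] γ = χ⁻¹ ((γ 1 1 : ℤ) : ZMod N) • eisG fam χ := by
  rw [eisG_slash fam χ hN γ]
  funext τ
  simp only [vecMul_of_mem_Gamma0 hγ, Pi.smul_apply, smul_eq_mul, eisG]
  obtain ⟨u, hu⟩ := isUnit_of_mem_Gamma0 hγ
  rw [← hu]
  have hχu : χ (u : ZMod N) ≠ 0 := IsUnit.ne_zero ((Units.isUnit u).map χ)
  have h1 : ∀ b : ZMod N, χ b * fam.F ![0, b * (u : ZMod N)] τ =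
      χ⁻¹ (u : ZMod N) * ((fun c : ZMod N => χ c * fam.F ![0, c] τ) (Units.mulRight u b)) := by
    intro b
    simp only [Units.mulRight_apply, map_mul, MulChar.inv_apply_eq_inv']
    field_simp
  simp only [h1]
  rw [← Finset.mul_sum, Equiv.sum_comp (Units.mulRight u) (fun c : ZMod N => χ c * fam.F ![0, c] τ)]

end form

/-! ### Part 3: bundling and `q`-expansion -/

section bundle

local notation "𝕢" => Function.Periodic.qParam

theorem qParam_add_period' {h : ℝ} (hh : h ≠ 0) (z : ℂ) : 𝕢 h (z + h) = 𝕢 h z := by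
  have hh' : (h : ℂ) ≠ 0 := by exact_mod_cast hh
  have e : 2 * (Real.pi : ℂ) * Complex.I * (z + h) / h =
      2 * (Real.pi : ℂ) * Complex.I * z / h + 2 * Real.pi * Complex.I := by
    field_simp
  rw [Function.Periodic.qParam, Function.Periodic.qParam, e, Complex.exp_periodic]

theorem periodic_of_hasSum' {h : ℝ} (hh : 0 < h) {F : ℍ → ℂ} {c : ℕ → ℂ}
    (hs : ∀ τ : ℍ, HasSum (fun m ↦ c m • 𝕢 h τ ^ m) (F τ)) :
    Function.Periodic (F ∘ ofComplex) h := by
  intro z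
  simp only [Function.comp_apply]
  by_cases hz : 0 < z.im
  · have hz' : 0 < (z + (h : ℂ)).im := by simpa using hz
    rw [ofComplex_apply_of_im_pos hz, ofComplex_apply_of_im_pos hz']
    have h1 := hs ⟨z + h, hz'⟩
    have h2 := hs ⟨z, hz⟩
    have hq : 𝕢 h ((⟨z + h, hz'⟩ : ℍ) : ℂ) = 𝕢 h ((⟨z, hz⟩ : ℍ) : ℂ) := by
      change 𝕢 h (z + h) = 𝕢 h z
      exact qParam_add_period' hh.ne' z
    rw [hq] at h1
    exact h1.unique h2
  · have hz1 : z.im ≤ 0 := not_lt.mp hz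
    have hz2 : (z + (h : ℂ)).im ≤ 0 := by simpa using hz1
    rw [ofComplex_apply_of_im_nonpos hz1, ofComplex_apply_of_im_nonpos hz2]

theorem qExpansion_coeff_of_hasSum' {h : ℝ} (hh : 0 < h) (f : ℍ → ℂ) (hF : MDiff f)
    {c : ℕ → ℂ} (hs : ∀ τ : ℍ, HasSum (fun m ↦ c m • 𝕢 h τ ^ m) (f τ)) (m : ℕ) :
    (qExpansion h f).coeff m = c m :=
  (qExpansion_coeff_unique (ContinuousMap.mk f hF.continuous) hh
    (analyticAt_cuspFunction_zero hh (periodic_of_hasSum' hh hs) hF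
      (isBoundedAtImInfty_of_hasSum_qExpansion hh hs)) hs m).symm

/-- Build a bundled modular form on an arithmetic subgroup from function-level data. -/
theorem exists_modularForm_of_data' (𝒢 : Subgroup (GL (Fin 2) ℝ)) [𝒢.IsArithmetic] (k : ℤ)
    (f : ℍ → ℂ) (hol : MDiff f) (hinv : ∀ γ ∈ 𝒢, f ∣[k] γ = f)
    (hbd : ∀ g : SL(2, ℤ), IsBoundedAtImInfty (f ∣[k] g)) :
    ∃ F : ModularForm 𝒢 k, ⇑F = f := by
  refine ⟨⟨⟨f, hinv⟩, hol, fun {c} hc => ?_⟩, rfl⟩
  have hc' : IsCusp c 𝒮ℒ := (Subgroup.IsArithmetic.isCusp_iff_isCusp_SL2Z 𝒢).mp hc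
  exact (OnePoint.isBoundedAt_iff_forall_SL2Z hc').mpr fun γ _ => hbd γ

variable {N : ℕ} [NeZero N] (fam : EisOneFamily N) (χ : DirichletCharacter ℂ N)

theorem mdiff_eisG (hN : 1 < N) : MDiff (eisG fam χ) := by
  have : Fact (1 < N) := ⟨hN⟩
  have h : eisG fam χ = ∑ b : ZMod N, (χ b) • fam.F ![0, b] := by
    funext τ
    simp [eisG, Finset.sum_apply]
  rw [h]
  refine MDifferentiable.sum fun b _ => ?_
  by_cases hb : b = 0
  · subst hb
    rw [MulChar.map_zero, zero_smul]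
    exact mdifferentiable_const
  · exact (fam.mdiff _ (vec_ne_zero hb)).const_smul _

theorem bdd_eisG_slash (hN : 1 < N) (γ : SL(2, ℤ)) :
    IsBoundedAtImInfty (eisG fam χ ∣[(1 : ℤ)] γ) := by
  have : Fact (1 < N) := ⟨hN⟩
  rw [eisG_slash fam χ hN γ]
  have h : (fun τ => ∑ b : ZMod N, χ b *
      fam.F (![0, b] ᵥ* (SpecialLinearGroup.map (Int.castRingHom (ZMod N)) γ :
        Matrix (Fin 2) (Fin 2) (ZMod N))) τ) =
      ∑ b : ZMod N, (χ b) • fam.F (![0, b] ᵥ*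
        (SpecialLinearGroup.map (Int.castRingHom (ZMod N)) γ :
          Matrix (Fin 2) (Fin 2) (ZMod N))) := by
    funext τ
    simp [Finset.sum_apply]
  rw [h]
  refine Asymptotics.IsBigO.sum fun b _ => ?_
  by_cases hb : b = 0
  · subst hb
    rw [MulChar.map_zero, zero_smul]
    exact Filter.const_boundedAtFilter _ 0
  · exact Filter.BoundedAtFilter.smul (χ b) (fam.bdd _ (vecMul_ne_zero (vec_ne_zero hb) γ))

theorem hasSum_eisG {χ : DirichletCharacter ℂ N} (hχ : χ.IsPrimitive) (hodd : χ.Odd) (τ : ℍ) :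
    HasSum (fun n : ℕ => (-4 * π * Complex.I * gaussSum χ ZMod.stdAddChar) *
        (∑ k ∈ (n + 1).divisors, χ⁻¹ (k : ZMod N)) *
          Complex.exp (2 * π * Complex.I * τ) ^ (n + 1))
      (eisG fam χ τ - 2 * π * Complex.I / N * gaussSum χ ZMod.stdAddChar *
        ∑ a ∈ Finset.range N, (a : ℂ) * χ⁻¹ (a : ZMod N)) := by
  have : Fact (1 < N) := ⟨one_lt_of_odd hodd⟩
  have h1 : ∀ b ∈ (Finset.univ : Finset (ZMod N)),
      HasSum (fun n : ℕ => χ b * ((4 * π * ∑ k ∈ (n + 1).divisors,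
        Complex.sin (2 * π * k * b.val / N)) * Complex.exp (2 * π * Complex.I * τ) ^ (n + 1)))
        (χ b * (fam.F ![0, b] τ - π * Complex.cot (π * b.val / N))) := by
    intro b _
    by_cases hb : b = 0
    · subst hb
      simp only [MulChar.map_zero, zero_mul]
      exact hasSum_zero
    · exact (fam.qexp b hb τ).mul_left (χ b)
  have h2 := hasSum_sum h1
  have e1 : ∑ b : ZMod N, χ b * (fam.F ![0, b] τ - π * Complex.cot (π * b.val / N)) =
      eisG fam χ τ - 2 * π * Complex.I / N * gaussSum χ ZMod.stdAddChar *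
        ∑ a ∈ Finset.range N, (a : ℂ) * χ⁻¹ (a : ZMod N) := by
    rw [← sum_mul_cot hχ hodd, eisG, ← Finset.sum_sub_distrib]
    refine Finset.sum_congr rfl fun b _ => ?_
    ring
  have e2 : (fun n : ℕ => ∑ b : ZMod N, χ b * ((4 * π * ∑ k ∈ (n + 1).divisors,
        Complex.sin (2 * π * k * b.val / N)) * Complex.exp (2 * π * Complex.I * τ) ^ (n + 1))) =
      fun n : ℕ => (-4 * π * Complex.I * gaussSum χ ZMod.stdAddChar) *
        (∑ k ∈ (n + 1).divisors, χ⁻¹ (k : ZMod N)) *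
          Complex.exp (2 * π * Complex.I * τ) ^ (n + 1) := by
    funext n
    have h3 : ∀ b : ZMod N, χ b * ((4 * π * ∑ k ∈ (n + 1).divisors,
        Complex.sin (2 * π * k * b.val / N)) * Complex.exp (2 * π * Complex.I * τ) ^ (n + 1)) =
        (4 * π * Complex.exp (2 * π * Complex.I * τ) ^ (n + 1)) *
          ∑ k ∈ (n + 1).divisors, χ b * Complex.sin (2 * π * k * b.val / N) := by
      intro b
      have h4 : ∑ k ∈ (n + 1).divisors, χ b * Complex.sin (2 * π * k * b.val / N) =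
          χ b * ∑ k ∈ (n + 1).divisors, Complex.sin (2 * π * k * b.val / N) :=
        (Finset.mul_sum _ _ _).symm
      rw [h4]
      ring
    simp only [h3]
    rw [← Finset.mul_sum, Finset.sum_comm]
    simp only [sum_mul_sin hχ hodd]
    have h5 : ∑ k ∈ (n + 1).divisors,
        -Complex.I * χ⁻¹ (k : ZMod N) * gaussSum χ ZMod.stdAddChar =
        (-Complex.I * gaussSum χ ZMod.stdAddChar) * ∑ k ∈ (n + 1).divisors, χ⁻¹ (k : ZMod N) := by
      rw [Finset.mul_sum]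
      refine Finset.sum_congr rfl fun k _ => ?_
      ring
    rw [h5]
    ring
  rw [e1, e2] at h2
  exact h2

end bundle

/-! ### Part 4: the Eisenstein series `E_{1,ψ}` -/

section main

variable {N : ℕ} [NeZero N]

theorem exists_eisenstein_of_family (fam : EisOneFamily N) (ψ : DirichletCharacter ℂ N)
    (hodd : ψ.Odd) (hprim : ψ.IsPrimitive) :
    ∃ E : ModularForm (Gamma1 N) 1,
      (∀ γ : SL(2, ℤ), γ ∈ Gamma0 N →
        (⇑E) ∣[(1 : ℤ)] mapGL ℝ γ = ψ (((γ 1 1 : ℤ) : ZMod N)) • (⇑E)) ∧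
      ModularFormClass.qCoeff E 0 =
        -(∑ a ∈ Finset.range N, (a : ℂ) * ψ (a : ZMod N)) / (2 * N) ∧
      ∀ n : ℕ, 1 ≤ n → ModularFormClass.qCoeff E n = ∑ d ∈ n.divisors, ψ (d : ZMod N) := by
  have hN : 1 < N := one_lt_of_odd hodd
  obtain ⟨χ, hχdef⟩ : ∃ χ : DirichletCharacter ℂ N, χ = ψ⁻¹ := ⟨_, rfl⟩
  have hχψ : χ⁻¹ = ψ := by rw [hχdef, inv_inv]
  have hχodd : χ.Odd := by rw [hχdef]; exact odd_inv hodd
  have hχprim : χ.IsPrimitive := by
    rw [hχdef, DirichletCharacter.isPrimitive_def, DirichletCharacter.conductor_inv]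
    exact hprim
  obtain ⟨g, hg⟩ : ∃ g : ℂ, g = gaussSum χ ZMod.stdAddChar := ⟨_, rfl⟩
  have hg0 : g ≠ 0 := by rw [hg]; exact gaussSum_ne_zero_of_isPrimitive hχprim
  have hπ : (π : ℂ) ≠ 0 := by exact_mod_cast Real.pi_ne_zero
  have hNC : (N : ℂ) ≠ 0 := NeZero.ne _
  have hc0 : (-4 * π * Complex.I * g) ≠ 0 :=
    mul_ne_zero (mul_ne_zero (mul_ne_zero (by norm_num) hπ) Complex.I_ne_zero) hg0
  obtain ⟨c, hc⟩ : ∃ c : ℂ, c = (-4 * π * Complex.I * g)⁻¹ := ⟨_, rfl⟩
  obtain ⟨Efun, hEfun⟩ : ∃ Efun : ℍ → ℂ, Efun = c • eisG fam χ := ⟨_, rfl⟩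
  have hol : MDiff Efun := by
    rw [hEfun]
    exact (mdiff_eisG fam χ hN).const_smul c
  have hslash : ∀ γ : SL(2, ℤ), Efun ∣[(1 : ℤ)] γ = c • (eisG fam χ ∣[(1 : ℤ)] γ) := by
    intro γ
    rw [hEfun]
    exact ModularForm.SL_smul_slash 1 γ _ c
  have hneb : ∀ γ : SL(2, ℤ), γ ∈ Gamma0 N →
      Efun ∣[(1 : ℤ)] γ = ψ ((γ 1 1 : ℤ) : ZMod N) • Efun := by
    intro γ hγ
    rw [hslash, eisG_slash_Gamma0 fam χ hN hγ, hχψ, smul_comm, hEfun]
  have hinv : ∀ γ ∈ (Gamma1 N : Subgroup (GL (Fin 2) ℝ)), Efun ∣[(1 : ℤ)] γ = Efun := by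
    rintro γ ⟨γ', hγ', rfl⟩
    have h0 : γ' ∈ Gamma0 N := Gamma1_in_Gamma0 N hγ'
    have h1 := hneb γ' h0
    rw [ModularForm.SL_slash] at h1
    have hd : ((γ' 1 1 : ℤ) : ZMod N) = 1 := ((Gamma1_mem N γ').mp hγ').2.1
    rw [hd, map_one, one_smul] at h1
    exact h1
  have hbd : ∀ γ : SL(2, ℤ), IsBoundedAtImInfty (Efun ∣[(1 : ℤ)] γ) := by
    intro γ
    rw [hslash]
    exact Filter.BoundedAtFilter.smul c (bdd_eisG_slash fam χ hN γ)
  obtain ⟨E, hE⟩ :=
    exists_modularForm_of_data' (Gamma1 N : Subgroup (GL (Fin 2) ℝ)) 1 Efun hol hinv hbd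
  -- the `q`-expansion
  obtain ⟨S, hS⟩ : ∃ S : ℂ, S = ∑ a ∈ Finset.range N, (a : ℂ) * χ⁻¹ (a : ZMod N) := ⟨_, rfl⟩
  obtain ⟨a, ha⟩ : ∃ a : ℕ → ℂ, a = fun m : ℕ =>
      if m = 0 then c * (2 * π * Complex.I / N * g * S)
      else ∑ k ∈ Nat.divisors m, χ⁻¹ ((k : ℕ) : ZMod N) := ⟨_, rfl⟩
  have hs : ∀ τ : ℍ, HasSum (fun m => a m • Function.Periodic.qParam 1 τ ^ m) (Efun τ) := by
    intro τ
    have h1 := (hasSum_eisG fam hχprim hχodd τ).mul_left c
    rw [← hg, ← hS] at h1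
    have hq : Function.Periodic.qParam 1 (τ : ℂ) = Complex.exp (2 * π * Complex.I * τ) := by
      simp [Function.Periodic.qParam]
    have e : (fun n : ℕ => a (n + 1) • Function.Periodic.qParam 1 (τ : ℂ) ^ (n + 1)) =
        fun i : ℕ => c * ((-4 * π * Complex.I * g * ∑ k ∈ (i + 1).divisors,
          χ⁻¹ ((k : ℕ) : ZMod N)) * Complex.exp (2 * π * Complex.I * τ) ^ (i + 1)) := by
      funext n
      simp only [ha, hq, smul_eq_mul, Nat.succ_ne_zero, if_false]
      rw [hc]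
      field_simp
    have h2 : HasSum (fun n : ℕ => a (n + 1) • Function.Periodic.qParam 1 (τ : ℂ) ^ (n + 1))
        (c * (eisG fam χ τ - 2 * π * Complex.I / N * g * S)) := by
      rw [e]
      exact h1
    have h3 := HasSum.zero_add (f := fun m : ℕ => a m • Function.Periodic.qParam 1 (τ : ℂ) ^ m) h2
    have e2 : (fun m : ℕ => a m • Function.Periodic.qParam 1 (τ : ℂ) ^ m) 0 +
        c * (eisG fam χ τ - 2 * π * Complex.I / N * g * S) = Efun τ := by
      simp only [ha, if_true, pow_zero, smul_eq_mul, mul_one, hEfun, Pi.smul_apply]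
      ring
    rw [e2] at h3
    exact h3
  have hcoeff : ∀ m, ModularFormClass.qCoeff (⇑E) m = a m := by
    intro m
    rw [ModularFormClass.qCoeff, hE]
    exact qExpansion_coeff_of_hasSum' one_pos Efun hol hs m
  refine ⟨E, ?_, ?_, ?_⟩
  · intro γ hγ
    rw [hE]
    have := hneb γ hγ
    rwa [ModularForm.SL_slash] at this
  · rw [hcoeff 0]
    simp only [ha, if_true]
    rw [hc, hS, hχψ]
    field_simp
    ring
  · intro n hn
    rw [hcoeff n]
    simp only [ha, if_neg (Nat.one_le_iff_ne_zero.mp hn), hχψ]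

/-- **EisensteinOnePiece**: the algebraic part of P2-EIS (step 5). -/
theorem eisensteinOnePiece : EisensteinOnePiece := by
  intro hfam N _ ψ hodd hprim
  obtain ⟨fam⟩ := hfam N (one_lt_of_odd hodd)
  exact exists_eisenstein_of_family fam ψ hodd hprim

end main

/-! ### Part 5: the congruence `H = 2ℓ·E_{1,ψ} ≡ 1` -/

section cong

theorem isPrimitive_of_odd_of_prime {ℓ : ℕ} [Fact ℓ.Prime] {ψ : DirichletCharacter ℂ ℓ}
    (hodd : ψ.Odd) : ψ.IsPrimitive := by
  have hℓ : ℓ.Prime := Fact.out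
  have : NeZero ℓ := ⟨hℓ.ne_zero⟩
  rw [DirichletCharacter.isPrimitive_def]
  rcases (Nat.dvd_prime hℓ).mp (DirichletCharacter.conductor_dvd_level ψ) with h | h
  · exact absurd (DirichletCharacter.eq_one_iff_conductor_eq_one.mpr h) (ne_one_of_odd hodd)
  · exact h

theorem sum_ite_range (R : Type*) [Ring R] (n : ℕ) :
    ∑ a ∈ Finset.range (n + 1), (if a = 0 then (0 : R) else 1) = n := by
  rw [Finset.sum_range_succ']
  simp

/-- **CongOnePiece**: step 6 of P2-EIS. -/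
theorem congOnePiece : CongOnePiece := by
  intro hEis ℓ _ hℓ2 R 𝔪 hℓ𝔪 ψ hψR hteich
  have hℓ : ℓ.Prime := Fact.out
  have : NeZero ℓ := ⟨hℓ.ne_zero⟩
  obtain ⟨x, hx⟩ : ∃ x : ZMod ℓ → R, ∀ a, (x a : ℂ) = ψ a := ⟨fun a => ⟨ψ a, hψR a⟩, fun _ => rfl⟩
  have hxm : ∀ a : ZMod ℓ, a ≠ 0 → (a.val : R) * x a - 1 ∈ 𝔪 := by
    intro a ha
    obtain ⟨y, hy, hmem⟩ := hteich a ha
    have hyx : y = x a := Subtype.ext (hy.trans (hx a).symm)
    rwa [hyx] at hmem
  obtain ⟨m, hm⟩ : ∃ m, ℓ = m + 1 := ⟨ℓ - 1, (Nat.succ_pred_eq_of_pos hℓ.pos).symm⟩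
  rcases ψ.even_or_odd with heven | hodd
  · -- degenerate case: `𝔪 = ⊤`
    have h1 : (1 : R) ∈ 𝔪 := by
      have hneg : (-1 : ZMod ℓ) ≠ 0 := by
        have : Fact (1 < ℓ) := ⟨hℓ.one_lt⟩
        exact neg_ne_zero.mpr one_ne_zero
      have h2 := hxm (-1) hneg
      have hx1 : x (-1) = 1 := by
        apply Subtype.ext
        rw [hx]
        exact heven
      have hval : ((-1 : ZMod ℓ).val : R) = (ℓ : R) - 1 := by
        subst hm
        rw [ZMod.val_neg_one]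
        push_cast
        ring
      rw [hx1, hval, mul_one] at h2
      -- `ℓ - 2 ∈ 𝔪`, so `2 ∈ 𝔪`, so `1 ∈ 𝔪` as `ℓ` is odd
      have h3 : (2 : R) ∈ 𝔪 := by
        have := 𝔪.sub_mem hℓ𝔪 h2
        have e : (ℓ : R) - ((ℓ : R) - 1 - 1) = 2 := by ring
        rwa [e] at this
      obtain ⟨k, hk⟩ : ∃ k, ℓ = 2 * k + 1 := by
        have : ¬ 2 ∣ ℓ := fun h => hℓ2 ((Nat.prime_dvd_prime_iff_eq Nat.prime_two hℓ).mp h).symm
        exact ⟨ℓ / 2, by omega⟩
      have h4 : (1 : R) = (ℓ : R) - 2 * (k : R) := by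
        rw [hk]
        push_cast
        ring
      rw [h4]
      exact 𝔪.sub_mem hℓ𝔪 (𝔪.mul_mem_right _ h3)
    have htop : ∀ r : R, r ∈ 𝔪 := fun r => by
      have := 𝔪.mul_mem_left r h1
      rwa [mul_one] at this
    refine ⟨0, ?_, fun _ => 0, ?_, htop _, fun n _ => ⟨0, by simp⟩⟩
    · intro γ _
      simp
    · intro n
      simp [ModularFormClass.qCoeff, qExpansion_zero]
  · -- main case
    have hprim : ψ.IsPrimitive := isPrimitive_of_odd_of_prime hodd
    obtain ⟨E, hneb, h0, hn⟩ := hEis ℓ ψ hodd hprim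
    have hΓ : (1 : ℝ) ∈ ((Gamma1 ℓ).map (mapGL ℝ)).strictPeriods := by
      simp [CongruenceSubgroup.strictPeriods_Gamma1]
    have hq : ∀ n, ModularFormClass.qCoeff (⇑(((2 * ℓ : ℕ) : ℂ) • E)) n =
        ((2 * ℓ : ℕ) : ℂ) * ModularFormClass.qCoeff (⇑E) n := by
      intro n
      rw [ModularFormClass.qCoeff, ModularFormClass.qCoeff, FunLike.coe_smul,
        qExpansion_smul (ModularFormClass.analyticAt_cuspFunction_zero E one_pos hΓ)]
      simp
    have hℓC : (ℓ : ℂ) ≠ 0 := NeZero.ne _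
    refine ⟨((2 * ℓ : ℕ) : ℂ) • E, ?_, fun n => if n = 0 then
      -∑ a ∈ Finset.range ℓ, (a : R) * x (a : ZMod ℓ)
      else (ℓ : R) * (((2 : ℕ) : R) * ∑ d ∈ Nat.divisors n, x ((d : ℕ) : ZMod ℓ)), ?_, ?_, ?_⟩
    · intro γ hγ
      have h := ModularForm.SL_smul_slash (1 : ℤ) γ (⇑E) (((2 * ℓ : ℕ) : ℂ))
      rw [ModularForm.SL_slash, ModularForm.SL_slash] at h
      have h' : (((2 * ℓ : ℕ) : ℂ) • ⇑E) ∣[(1 : ℤ)] mapGL ℝ γ =
          ((2 * ℓ : ℕ) : ℂ) • (⇑E ∣[(1 : ℤ)] mapGL ℝ γ) := h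
      rw [FunLike.coe_smul, h', hneb γ hγ, smul_comm]
    · intro n
      rw [hq]
      dsimp only
      by_cases hn0 : n = 0
      · subst hn0
        rw [h0, if_pos rfl]
        push_cast
        simp only [hx]
        field_simp
      · rw [hn n (Nat.one_le_iff_ne_zero.mpr hn0), if_neg hn0]
        have h2 : ((2 : R) : ℂ) = 2 := rfl
        push_cast
        simp only [hx, h2]
        ring
    · dsimp only
      rw [if_pos rfl]
      have hsum : ∑ a ∈ Finset.range ℓ, ((a : R) * x (a : ZMod ℓ) -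
          (if a = 0 then (0 : R) else 1)) ∈ 𝔪 := by
        refine 𝔪.sum_mem fun a ha => ?_
        by_cases ha0 : a = 0
        · subst ha0
          simp
        · rw [if_neg ha0]
          have hlt : a < ℓ := Finset.mem_range.mp ha
          have hane : ((a : ℕ) : ZMod ℓ) ≠ 0 := by
            intro h
            rw [ZMod.natCast_eq_zero_iff] at h
            exact ha0 (Nat.eq_zero_of_dvd_of_lt h hlt)
          have := hxm _ hane
          rwa [ZMod.val_natCast_of_lt hlt] at this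
      rw [Finset.sum_sub_distrib] at hsum
      have e : -∑ a ∈ Finset.range ℓ, (a : R) * x (a : ZMod ℓ) - 1 =
          -(∑ a ∈ Finset.range ℓ, (a : R) * x (a : ZMod ℓ) -
            ∑ a ∈ Finset.range ℓ, (if a = 0 then (0 : R) else 1)) - (ℓ : R) := by
        have h5 : ∑ a ∈ Finset.range ℓ, (if a = 0 then (0 : R) else 1) = (ℓ : R) - 1 := by
          subst hm
          rw [sum_ite_range]
          push_cast
          ring
        rw [h5]
        ring
      rw [e]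
      exact 𝔪.sub_mem (𝔪.neg_mem hsum) hℓ𝔪
    · intro n hn1
      dsimp only
      rw [if_neg (Nat.one_le_iff_ne_zero.mp hn1)]
      exact ⟨_, rfl⟩

end cong

end Fermat.Agent.S48.H196
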