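import Mathlib
import Fermat.Prelude.Def_FLTPrelim_Modularity

/-!
# S48 / P2-EIS : interface between the analytic part (steps 1-4) and the algebraic part (steps 5-6)

(helper196, 2nd owner of steps 5-6 of `origin/helper796:coord/S48-P2EIS-helper796.md`.)

* `EisOneFamily N` : the analytic input — a family `F v : ℍ → ℂ`, `v ∈ (ℤ/N)²`, of holomorphic
  functions of weight one, `F v ∣[1] γ = F (v ᵥ* γ)` for all `γ ∈ SL(2,ℤ)`, bounded at `i∞`, with the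
  explicit `q`-expansion of `F (0, b)`:
  `F (0,b) = π cot(π b / N) + 4 π ∑_{n ≥ 1} (∑_{k ∣ n} sin(2 π k b / N)) qⁿ`.
  (Classically `F v (τ) = P((aτ+b)/N, τ) + 2πi a/N`, `P` the cotangent series.)
* `EisensteinOneStatement`, `CongOneStatement` : the two targets of P2-EIS.

Everything in this file is a definition (no proofs).
-/

set_option autoImplicit false

noncomputable section

namespace Fermat.Agent.S48.H196

open UpperHalfPlane ModularForm CongruenceSubgroup Matrix Matrix.SpecialLinearGroup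
open scoped MatrixGroups Manifold Real

/-- The analytic input of P2-EIS (steps 1-4). -/
structure EisOneFamily (N : ℕ) [NeZero N] where
  /-- the functions `F_v`, `v ∈ (ℤ/N)²` (only `v ≠ 0` is used) -/
  F : (Fin 2 → ZMod N) → ℍ → ℂ
  mdiff : ∀ v : Fin 2 → ZMod N, v ≠ 0 → MDiff (F v)
  slash : ∀ v : Fin 2 → ZMod N, v ≠ 0 → ∀ γ : SL(2, ℤ), F v ∣[(1 : ℤ)] γ = F (v ᵥ* γ)
  bdd : ∀ v : Fin 2 → ZMod N, v ≠ 0 → IsBoundedAtImInfty (F v)
  qexp : ∀ b : ZMod N, b ≠ 0 → ∀ τ : ℍ,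
    HasSum (fun n : ℕ =>
        (4 * π * ∑ k ∈ (n + 1).divisors, Complex.sin (2 * π * k * b.val / N)) *
          Complex.exp (2 * π * Complex.I * τ) ^ (n + 1))
      (F ![0, b] τ - π * Complex.cot (π * b.val / N))

/-- **EIS.**  The weight-one Eisenstein series `E_{1,ψ}` of an odd primitive character `ψ` mod `N`:
a modular form on `Γ₁(N)` with nebentypus `ψ`, constant term `-B_{1,ψ}/2` and
`a_n = ∑_{d ∣ n} ψ(d)`. -/
def EisensteinOneStatement : Prop :=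
  ∀ (N : ℕ) [NeZero N] (ψ : DirichletCharacter ℂ N), ψ.Odd → ψ.IsPrimitive →
    ∃ E : ModularForm (Gamma1 N) 1,
      (∀ γ : SL(2, ℤ), γ ∈ Gamma0 N →
        (⇑E) ∣[(1 : ℤ)] mapGL ℝ γ = ψ (((γ 1 1 : ℤ) : ZMod N)) • (⇑E)) ∧
      ModularFormClass.qCoeff E 0 = -(∑ a ∈ Finset.range N, (a : ℂ) * ψ (a : ZMod N)) / (2 * N) ∧
      ∀ n : ℕ, 1 ≤ n → ModularFormClass.qCoeff E n = ∑ d ∈ n.divisors, ψ (d : ZMod N)

/-- **CONG.**  For an odd prime `ℓ`, a subring `R ⊆ ℂ`, an ideal `𝔪` of `R` containing `ℓ`, and a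
character `ψ` mod `ℓ` with values in `R` which is inverse to the reduction map modulo `𝔪`
(`a · ψ(a) ≡ 1 mod 𝔪`, i.e. `ψ = ω⁻¹`): the form `H = 2ℓ · E_{1,ψ}` has nebentypus `ψ`,
coefficients in `R`, constant term `≡ 1` and all higher coefficients in `ℓ R`. -/
def CongOneStatement : Prop :=
  ∀ (ℓ : ℕ) [Fact ℓ.Prime], ℓ ≠ 2 → ∀ (R : Subring ℂ) (𝔪 : Ideal R), (ℓ : R) ∈ 𝔪 →
    ∀ ψ : DirichletCharacter ℂ ℓ, (∀ a : ZMod ℓ, ψ a ∈ R) →
      (∀ a : ZMod ℓ, a ≠ 0 → ∃ x : R, (x : ℂ) = ψ a ∧ (a.val : R) * x - 1 ∈ 𝔪) →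
      ∃ H : ModularForm (Gamma1 ℓ) 1,
        (∀ γ : SL(2, ℤ), γ ∈ Gamma0 ℓ →
          (⇑H) ∣[(1 : ℤ)] mapGL ℝ γ = ψ (((γ 1 1 : ℤ) : ZMod ℓ)) • (⇑H)) ∧
        ∃ A : ℕ → R, (∀ n : ℕ, (A n : ℂ) = ModularFormClass.qCoeff H n) ∧
          A 0 - 1 ∈ 𝔪 ∧ ∀ n : ℕ, 1 ≤ n → ∃ y : R, A n = (ℓ : R) * y

/-- The analytic input, as a statement: a family exists for every `N ≥ 2`. -/
def EisOneFamilyStatement : Prop :=
  ∀ (N : ℕ) [NeZero N], 2 ≤ N → Nonempty (EisOneFamily N)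

/-- The algebraic part (steps 5-6), as a piece. -/
def EisensteinOnePiece : Prop := EisOneFamilyStatement → EisensteinOneStatement

/-- The congruence part, as a piece. -/
def CongOnePiece : Prop := EisensteinOneStatement → CongOneStatement

end Fermat.Agent.S48.H196
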